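import Mathlib
import Fermat.Prelude.Def_ModularCurve_LaurentCoeff

/-!
# JT3, reduction side: the lattice core of node F (abstract form)

`jl_core`: the purely algebraic heart of "reduction is injective on prime-to-`ℓ` torsion",
over an arbitrary valuation ring `O` (no discreteness), for two finitely generated lattices of
Laurent series `Λ = span b`, `Λ₀ = span b₀` with residually independent generators.
Everything is elementary linear algebra over `O` plus coefficient bookkeeping.
-/

set_option autoImplicit false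

open IsLocalRing Matrix

namespace Fermat.Agent.JT3

section ValLA

variable {O : Type*} [CommRing O] [IsDomain O] [ValuationRing O]

/-- In a valuation ring, a finite nonempty family has a member dividing all the others. -/
theorem jl_exists_dvd_all {κ : Type*} [Finite κ] [Nonempty κ] (u : κ → O) :
    ∃ a₀, ∀ a, u a₀ ∣ u a := by
  classical
  have := Fintype.ofFinite κ
  have key : ∀ s : Finset κ, s.Nonempty → ∃ a₀ ∈ s, ∀ a ∈ s, u a₀ ∣ u a := by
    intro s hs
    induction hs using Finset.Nonempty.cons_induction with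
    | singleton a => exact ⟨a, Finset.mem_singleton_self a, fun b hb => by
        rw [Finset.mem_singleton] at hb; rw [hb]⟩
    | cons a s ha hs ih =>
      obtain ⟨a₀, ha₀, h⟩ := ih
      rcases ValuationRing.dvd_total (u a) (u a₀) with h1 | h1
      · refine ⟨a, Finset.mem_cons_self a s, fun b hb => ?_⟩
        rcases Finset.mem_cons.mp hb with rfl | hb
        · exact dvd_rfl
        · exact h1.trans (h b hb)
      · refine ⟨a₀, Finset.mem_cons.mpr (Or.inr ha₀), fun b hb => ?_⟩
        rcases Finset.mem_cons.mp hb with rfl | hb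
        · exact h1
        · exact h b hb
  obtain ⟨a₀, -, h⟩ := key Finset.univ Finset.univ_nonempty
  exact ⟨a₀, fun a => h a (Finset.mem_univ a)⟩

/-- Content: a nonzero vector over a valuation ring is a nonzero scalar times a vector with a
unit coordinate. -/
theorem jl_content {κ : Type*} [Finite κ] (u : κ → O) (hu : u ≠ 0) :
    ∃ (d : O) (t : κ → O), d ≠ 0 ∧ u = d • t ∧ ∃ a, IsUnit (t a) := by
  classical
  have hne : Nonempty κ := by
    by_contra h
    rw [not_nonempty_iff] at h
    exact hu (Subsingleton.elim _ _)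
  obtain ⟨a₀, h⟩ := jl_exists_dvd_all u
  have hd : u a₀ ≠ 0 := by
    intro h0
    apply hu
    funext a
    have := h a
    rw [h0, zero_dvd_iff] at this
    exact this
  choose t ht using h
  refine ⟨u a₀, t, hd, ?_, a₀, ?_⟩
  · funext a
    simp only [Pi.smul_apply, smul_eq_mul]
    exact ht a
  · have := ht a₀
    have h1 : t a₀ = 1 := by
      have h2 : u a₀ * t a₀ = u a₀ * 1 := by rw [← this, mul_one]
      exact mul_left_cancel₀ hd h2
    rw [h1]
    exact isUnit_one

/-- If a linear combination of vectors with independent reductions is divisible by `d`, so are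
all its coefficients. -/
theorem jl_dvd_of_sum_eq_smul {ι κ : Type*} [Fintype ι] (v : ι → κ → O)
    (hv : LinearIndependent (ResidueField O) (fun i => (fun a => residue O (v i a))))
    (c : ι → O) (d : O) (u : κ → O) (h : ∑ i, c i • v i = d • u) : ∀ i, d ∣ c i := by
  classical
  rcases isEmpty_or_nonempty ι with hι | hι
  · exact fun i => (IsEmpty.false i).elim
  obtain ⟨i₀, hi₀⟩ := jl_exists_dvd_all c
  by_cases h1 : d ∣ c i₀
  · exact fun i => h1.trans (hi₀ i)
  exfalso
  have hc0 : c i₀ ≠ 0 := fun h0 => h1 (h0 ▸ dvd_zero d)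
  obtain ⟨d', hd'⟩ : c i₀ ∣ d := (ValuationRing.dvd_total d (c i₀)).resolve_left h1
  have hd'u : ¬ IsUnit d' := by
    intro hu
    apply h1
    obtain ⟨e, he⟩ := hu.exists_right_inv
    exact ⟨e, by rw [hd', mul_assoc, he, mul_one]⟩
  choose c' hc' using hi₀
  have hc'1 : c' i₀ = 1 := by
    have h2 : c i₀ * c' i₀ = c i₀ * 1 := by rw [← hc' i₀, mul_one]
    exact mul_left_cancel₀ hc0 h2
  have h3 : ∑ i, c' i • v i = d' • u := by
    funext a
    have ha := congrFun h a
    simp only [Finset.sum_apply, Pi.smul_apply, smul_eq_mul] at ha ⊢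
    apply mul_left_cancel₀ hc0
    rw [Finset.mul_sum, ← mul_assoc, ← hd', ← ha]
    refine Finset.sum_congr rfl fun i _ => ?_
    rw [← mul_assoc, ← hc' i]
  have h4 : ∑ i, residue O (c' i) • (fun a => residue O (v i a)) = 0 := by
    funext a
    have ha := congrArg (residue O) (congrFun h3 a)
    simp only [Finset.sum_apply, Pi.smul_apply, smul_eq_mul, map_sum, map_mul] at ha ⊢
    rw [ha, (residue_eq_zero_iff d').mpr ((mem_maximalIdeal d').mpr hd'u), zero_mul]
    rfl
  have h5 := Fintype.linearIndependent_iff.mp hv _ h4 i₀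
  rw [hc'1, map_one] at h5
  exact one_ne_zero h5

/-- Vectors with independent reductions admit a dual system of functionals. -/
theorem jl_exists_dual {ι κ : Type*} [Fintype ι] [Fintype κ] [DecidableEq ι] [DecidableEq κ]
    (w : ι → κ → O)
    (hw : LinearIndependent (ResidueField O) (fun i => (fun a => residue O (w i a)))) :
    ∃ Φ : (κ → O) →ₗ[O] (ι → O), ∀ i, Φ (w i) = Pi.single i 1 := by
  classical
  set wb : ι → κ → ResidueField O := fun i => (fun a => residue O (w i a)) with hwb
  have hinj : Function.Injective (Fintype.linearCombination (ResidueField O) wb) :=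
    linearIndependent_iff_injective_fintypeLinearCombination.mp hw
  obtain ⟨gb, hgb⟩ := LinearMap.exists_leftInverse_of_injective
    (Fintype.linearCombination (ResidueField O) wb) (LinearMap.ker_eq_bot.mpr hinj)
  -- lift
  let s : ResidueField O → O := Function.surjInv (residue_surjective (R := O))
  have hs : ∀ x, residue O (s x) = x := Function.surjInv_eq _
  let G : Matrix ι κ O := fun i a => s (gb (Pi.single a 1) i)
  let W : Matrix κ ι O := fun a i => w i a
  have hM : (G * W).map (residue O) = 1 := by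
    ext i j
    have h1 : gb (wb j) = Pi.single j 1 := by
      have := LinearMap.congr_fun hgb (Pi.single j 1)
      simp only [LinearMap.comp_apply, LinearMap.id_apply] at this
      rw [← this]
      congr 1
      simp [Fintype.linearCombination_apply]
    have h2 := LinearMap.pi_apply_eq_sum_univ gb (wb j)
    rw [h1] at h2
    have h3 := congrFun h2 i
    simp only [Finset.sum_apply, Pi.smul_apply, smul_eq_mul] at h3
    rw [Matrix.one_apply]
    have h4 : (Pi.single j 1 : ι → ResidueField O) i = if i = j then 1 else 0 := by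
      simp [Pi.single_apply]
    rw [← h4, h3, Matrix.map_apply, Matrix.mul_apply, map_sum]
    refine Finset.sum_congr rfl fun a _ => ?_
    rw [map_mul, mul_comm]
    change residue O (w j a) * residue O (s (gb (Pi.single a 1) i)) = _
    rw [hs]
    have h5 : (Pi.single a 1 : κ → ResidueField O) = fun j => if a = j then 1 else 0 := by
      funext b
      simp [Pi.single_apply, eq_comm]
    rw [h5]
  have hdet : IsUnit (G * W).det := by
    rw [← residue_ne_zero_iff_isUnit]
    have := RingHom.map_det (residue O) (G * W)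
    rw [this]
    change ((G * W).map (residue O)).det ≠ 0
    rw [hM, Matrix.det_one]
    exact one_ne_zero
  refine ⟨Matrix.toLin' ((G * W)⁻¹ * G), fun i => ?_⟩
  have hWi : w i = W *ᵥ Pi.single i 1 := by
    rw [Matrix.mulVec_single_one]
    rfl
  rw [hWi, Matrix.toLin'_apply, Matrix.mulVec_mulVec, Matrix.mul_assoc,
    Matrix.nonsing_inv_mul _ hdet, Matrix.one_mulVec]

end ValLA

section Coeffs

variable {R : Type*} [CommRing R]

/-- A Laurent series is regular if it has no negative coefficients. -/
def jl_IsReg (x : LaurentSeries R) : Prop := ∀ n : ℤ, n < 0 → x.coeff n = 0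

theorem jl_isReg_zero : jl_IsReg (0 : LaurentSeries R) := fun _ _ => rfl

theorem jl_isReg_one : jl_IsReg (1 : LaurentSeries R) := fun n hn => by
  rw [HahnSeries.coeff_one, if_neg hn.ne]

theorem jl_isReg_add {x y : LaurentSeries R} (hx : jl_IsReg x) (hy : jl_IsReg y) :
    jl_IsReg (x + y) := fun n hn => by
  rw [HahnSeries.coeff_add, hx n hn, hy n hn, add_zero]

theorem jl_isReg_sub {x y : LaurentSeries R} (hx : jl_IsReg x) (hy : jl_IsReg y) :
    jl_IsReg (x - y) := fun n hn => by
  rw [HahnSeries.coeff_sub, hx n hn, hy n hn, sub_zero]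

theorem jl_isReg_smul (c : R) {x : LaurentSeries R} (hx : jl_IsReg x) :
    jl_IsReg (c • x) := fun n hn => by
  rw [HahnSeries.coeff_smul, hx n hn, smul_zero]

theorem jl_isReg_mul {x y : LaurentSeries R} (hx : jl_IsReg x) (hy : jl_IsReg y) :
    jl_IsReg (x * y) := fun n hn => by
  rw [HahnSeries.coeff_mul]
  refine Finset.sum_eq_zero fun ij hij => ?_
  rw [Finset.mem_antidiagonal] at hij
  obtain ⟨-, -, h⟩ := hij
  by_cases h1 : ij.1 < 0
  · rw [hx _ h1, zero_mul]
  · have h2 : ij.2 < 0 := by omega
    rw [hy _ h2, mul_zero]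

theorem jl_isReg_pow {x : LaurentSeries R} (hx : jl_IsReg x) (m : ℕ) : jl_IsReg (x ^ m) := by
  induction m with
  | zero => rw [pow_zero]; exact jl_isReg_one
  | succ m ih => rw [pow_succ]; exact jl_isReg_mul ih hx

/-- The coefficient vector of a Laurent series on a finite set of exponents. -/
def jl_cv (s : Finset ℤ) (x : LaurentSeries R) : s → R := fun a => x.coeff a.1

theorem jl_cv_apply (s : Finset ℤ) (x : LaurentSeries R) (a : s) : jl_cv s x a = x.coeff a.1 := rfl

theorem jl_cv_add (s : Finset ℤ) (x y : LaurentSeries R) :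
    jl_cv s (x + y) = jl_cv s x + jl_cv s y := rfl

theorem jl_cv_sub (s : Finset ℤ) (x y : LaurentSeries R) :
    jl_cv s (x - y) = jl_cv s x - jl_cv s y := by
  funext a; simp [jl_cv]

theorem jl_cv_smul (s : Finset ℤ) (c : R) (x : LaurentSeries R) :
    jl_cv s (c • x) = c • jl_cv s x := rfl

theorem jl_cv_sum (s : Finset ℤ) {ι : Type*} (t : Finset ι) (f : ι → LaurentSeries R) :
    jl_cv s (∑ i ∈ t, f i) = ∑ i ∈ t, jl_cv s (f i) := by
  funext a
  simp only [jl_cv, Finset.sum_apply]
  exact HahnSeries.coeff_sum a.1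

/-- The Laurent polynomial with prescribed coefficients on a finite set of exponents. -/
noncomputable def jl_ofCv (s : Finset ℤ) (t : s → R) : LaurentSeries R :=
  ∑ a : s, HahnSeries.single a.1 (t a)

theorem jl_ofCv_coeff_mem (s : Finset ℤ) (t : s → R) (a : s) :
    (jl_ofCv s t).coeff a.1 = t a := by
  classical
  rw [jl_ofCv, HahnSeries.coeff_sum]
  rw [Finset.sum_eq_single a]
  · exact HahnSeries.coeff_single_same _ _
  · intro b _ hb
    exact HahnSeries.coeff_single_of_ne (fun h => hb (Subtype.ext h.symm))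
  · intro h; exact (h (Finset.mem_univ a)).elim

theorem jl_ofCv_coeff_not_mem (s : Finset ℤ) (t : s → R) {n : ℤ} (hn : n ∉ s) :
    (jl_ofCv s t).coeff n = 0 := by
  rw [jl_ofCv, HahnSeries.coeff_sum]
  refine Finset.sum_eq_zero fun b _ => ?_
  exact HahnSeries.coeff_single_of_ne (fun h => hn (h ▸ b.2))

end Coeffs

section Red

variable {O : Type*} [CommRing O] [IsDomain O] [ValuationRing O]

theorem jl_red_smul (c : O) (x : LaurentSeries O) :
    ModularCurve.coeffMap (residue O) (c • x) =
      residue O c • ModularCurve.coeffMap (residue O) x := by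
  ext n
  simp [HahnSeries.coeff_smul]

theorem jl_red_smul_of_residue_eq_zero {c : O} (hc : residue O c = 0) (x : LaurentSeries O) :
    ModularCurve.coeffMap (residue O) (c • x) = 0 := by
  rw [jl_red_smul, hc, zero_smul]

theorem jl_isReg_red {x : LaurentSeries O} (hx : jl_IsReg x) :
    jl_IsReg (ModularCurve.coeffMap (residue O) x) := fun n hn => by
  rw [ModularCurve.coeffMap_coeff, hx n hn, map_zero]

theorem jl_cv_red (s : Finset ℤ) (x : LaurentSeries O) :
    jl_cv s (ModularCurve.coeffMap (residue O) x) = fun a => residue O (jl_cv s x a) := rfl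

end Red

section Dual

variable {O : Type*} [CommRing O] [IsDomain O] [ValuationRing O]

/-- A linear map between finite coordinate spaces preserves "all coordinates in the maximal
ideal". -/
theorem jl_residue_lin_eq_zero {ι κ : Type*} [Fintype κ] [DecidableEq κ]
    (Φ : (κ → O) →ₗ[O] (ι → O)) (u : κ → O) (hu : ∀ a, residue O (u a) = 0) (i : ι) :
    residue O (Φ u i) = 0 := by
  have h := congrFun (LinearMap.pi_apply_eq_sum_univ Φ u) i
  rw [h, Finset.sum_apply, map_sum]
  refine Finset.sum_eq_zero fun a _ => ?_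
  rw [Pi.smul_apply, smul_eq_mul, map_mul, hu a, zero_mul]

/-- If `Φ` is dual to `w`, a vector killed by `Φ` whose reduction lies in the span of the
reductions of `w` has zero reduction. -/
theorem jl_residue_eq_zero_of_dual {ι κ : Type*} [Fintype ι] [Fintype κ] [DecidableEq ι]
    [DecidableEq κ] (w : ι → κ → O) (Φ : (κ → O) →ₗ[O] (ι → O))
    (hΦ : ∀ i, Φ (w i) = Pi.single i 1) (t : κ → O) (ht : Φ t = 0)
    (hmem : (fun a => residue O (t a)) ∈
      Submodule.span (ResidueField O) (Set.range fun i => (fun a => residue O (w i a)))) :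
    ∀ a, residue O (t a) = 0 := by
  obtain ⟨cb, hcb⟩ := (Submodule.mem_span_range_iff_exists_fun _).mp hmem
  choose c hc using fun i => residue_surjective (R := O) (cb i)
  -- t' := t - Σ c_i w_i has zero reduction
  have h1 : ∀ a, residue O ((t - ∑ i, c i • w i) a) = 0 := by
    intro a
    have := congrFun hcb a
    simp only [Finset.sum_apply, Pi.smul_apply, smul_eq_mul] at this
    simp only [Pi.sub_apply, Finset.sum_apply, Pi.smul_apply, smul_eq_mul, map_sub, map_sum,
      map_mul, hc]
    rw [this, sub_self]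
  have h2 : Φ (t - ∑ i, c i • w i) = - c := by
    rw [map_sub, ht, map_sum, zero_sub]
    congr 1
    funext j
    simp only [map_smul, hΦ, Finset.sum_apply, Pi.smul_apply, smul_eq_mul, Pi.single_apply,
      mul_ite, mul_one, mul_zero]
    rw [Finset.sum_ite_eq]
    simp
  have h3 : ∀ i, cb i = 0 := by
    intro i
    have := jl_residue_lin_eq_zero Φ _ h1 i
    rw [h2, Pi.neg_apply, map_neg, hc, neg_eq_zero] at this
    exact this
  intro a
  have := congrFun hcb a
  simp only [Finset.sum_apply, Pi.smul_apply, smul_eq_mul, h3, zero_mul,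
    Finset.sum_const_zero] at this
  exact this.symm

end Dual

section Core

variable {O : Type*} [CommRing O] [IsDomain O] [ValuationRing O]

local notation "red" => ModularCurve.coeffMap (residue O)

omit [IsDomain O] [ValuationRing O] in
/-- Coefficient bound for the span. -/
theorem jl_coeff_eq_zero_of_mem_span {ι : Type*} (b : ι → LaurentSeries O) (M : ℤ)
    (hM : ∀ i, ∀ n : ℤ, n < M → (b i).coeff n = 0) {x : LaurentSeries O}
    (hx : x ∈ Submodule.span O (Set.range b)) : ∀ n : ℤ, n < M → x.coeff n = 0 := by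
  intro n hn
  induction hx using Submodule.span_induction with
  | mem y hy => obtain ⟨i, rfl⟩ := hy; exact hM i n hn
  | zero => rfl
  | add y z _ _ hy hz => rw [HahnSeries.coeff_add, hy, hz, add_zero]
  | smul c y _ hy => rw [HahnSeries.coeff_smul, hy, smul_zero]

/-- Reductions of coefficient vectors of span elements lie in the span of the reductions. -/
theorem jl_cv_red_mem_span {ι : Type*} (b : ι → LaurentSeries O) (s : Finset ℤ)
    {x : LaurentSeries O} (hx : x ∈ Submodule.span O (Set.range b)) :
    (fun a => residue O (jl_cv s x a)) ∈ Submodule.span (ResidueField O)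
      (Set.range fun i => (fun a => residue O (jl_cv s (b i) a))) := by
  induction hx using Submodule.span_induction with
  | mem y hy => obtain ⟨i, rfl⟩ := hy; exact Submodule.subset_span ⟨i, rfl⟩
  | zero =>
    have h0 : (fun a => residue O (jl_cv s (0 : LaurentSeries O) a)) = 0 := by
      funext a
      simp [jl_cv]
    rw [h0]
    exact Submodule.zero_mem _
  | add y z _ _ hy hz =>
    have h0 : (fun a => residue O (jl_cv s (y + z) a)) =
        (fun a => residue O (jl_cv s y a)) + (fun a => residue O (jl_cv s z a)) := by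
      funext a
      simp [jl_cv]
    rw [h0]
    exact Submodule.add_mem _ hy hz
  | smul c y _ hy =>
    have h0 : (fun a => residue O (jl_cv s (c • y) a)) =
        residue O c • (fun a => residue O (jl_cv s y a)) := by
      funext a
      simp [jl_cv, HahnSeries.coeff_smul]
    rw [h0]
    exact Submodule.smul_mem _ (residue O c) hy

/-- Independence of the reduced coefficient vectors on `[-N, 0]`. -/
theorem jl_cv_indep {ι : Type*} [Fintype ι] (b : ι → LaurentSeries O)
    (hb : LinearIndependent (ResidueField O) (fun i => red (b i)))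
    (N : ℕ) (hN : ∀ i, ∀ n : ℤ, n < -(N : ℤ) → (b i).coeff n = 0)
    (hker : ∀ y ∈ Submodule.span O (Set.range b), jl_IsReg (red y) →
      ∃ c : ResidueField O, red y = HahnSeries.single 0 c) :
    LinearIndependent (ResidueField O)
      (fun i => (fun a => residue O (jl_cv (Finset.Icc (-(N : ℤ)) 0) (b i) a))) := by
  classical
  rw [Fintype.linearIndependent_iff]
  intro cb hcb
  choose c hc using fun i => residue_surjective (R := O) (cb i)
  set y : LaurentSeries O := ∑ i, c i • b i with hy
  have hyΛ : y ∈ Submodule.span O (Set.range b) :=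
    Submodule.sum_mem _ fun i _ => Submodule.smul_mem _ _ (Submodule.subset_span ⟨i, rfl⟩)
  have hyred : red y = ∑ i, cb i • red (b i) := by
    rw [hy, map_sum]
    refine Finset.sum_congr rfl fun i _ => ?_
    rw [jl_red_smul, hc]
  have hycoeff : ∀ n : ℤ, n ≤ 0 → (red y).coeff n = 0 := by
    intro n hn
    by_cases hns : n ∈ Finset.Icc (-(N : ℤ)) 0
    · have := congrFun hcb ⟨n, hns⟩
      simp only [Finset.sum_apply, Pi.smul_apply, smul_eq_mul, Pi.zero_apply, jl_cv] at this
      rw [hyred, HahnSeries.coeff_sum]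
      rw [← this]
      refine Finset.sum_congr rfl fun i _ => ?_
      rw [HahnSeries.coeff_smul, ModularCurve.coeffMap_coeff, smul_eq_mul]
    · have hlt : n < -(N : ℤ) := by
        rw [Finset.mem_Icc] at hns
        omega
      rw [ModularCurve.coeffMap_coeff,
        jl_coeff_eq_zero_of_mem_span b _ hN hyΛ n hlt, map_zero]
  obtain ⟨c0, hc0⟩ := hker y hyΛ (fun n hn => hycoeff n hn.le)
  have hc00 : c0 = 0 := by
    have := hycoeff 0 le_rfl
    rw [hc0, HahnSeries.coeff_single_same] at this
    exact this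
  rw [hc00, HahnSeries.single_eq_zero] at hc0
  rw [hyred] at hc0
  exact Fintype.linearIndependent_iff.mp hb cb hc0


omit [IsDomain O] [ValuationRing O] in
/-- Existence of a common pole bound for a finite family. -/
theorem jl_exists_bound {ι₀ : Type*} [Finite ι₀] (b₀ : ι₀ → LaurentSeries O) (N : ℕ) :
    ∃ N₀ : ℕ, N ≤ N₀ ∧ ∀ j, ∀ n : ℤ, n < -(N₀ : ℤ) → (b₀ j).coeff n = 0 := by
  classical
  have := Fintype.ofFinite ι₀
  refine ⟨max N (Finset.univ.sup fun j => (-(b₀ j).order).toNat), le_max_left _ _, ?_⟩
  intro j n hn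
  apply HahnSeries.coeff_eq_zero_of_lt_order
  have h1 : (-(b₀ j).order).toNat ≤ Finset.univ.sup fun j => (-(b₀ j).order).toNat :=
    Finset.le_sup (f := fun j => (-(b₀ j).order).toNat) (Finset.mem_univ j)
  have h2 : (Finset.univ.sup fun j => (-(b₀ j).order).toNat) ≤
      max N (Finset.univ.sup fun j => (-(b₀ j).order).toNat) := le_max_right _ _
  have h3 := Int.self_le_toNat (-(b₀ j).order)
  push_cast at hn
  omega

/-- **Lattice core of node F.**  `O` is any valuation ring with residue field `𝕜`, `red` is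
coefficientwise reduction of Laurent series.  `Λ = span b`, `Λ₀ = span b₀` are lattices with
residually independent generators; elements of `Λ` have pole order `≤ N`; `1 ∈ Λ₀`; in `red Λ`
and `red Λ₀` regular elements are constant; every element of `red Λ₀` of pole order `≤ N` lies in
`red Λ`; `g ≡ 1` is a regular series with `x ^ m * g ∈ Λ₀` whenever `x ∈ Λ`, `red x = 1`, and `m`
is invertible in `𝕜`.  Then `Λ` contains a regular element reducing to `1`. -/
theorem jl_core {ι ι₀ : Type*} [Fintype ι] [Fintype ι₀]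
    (b : ι → LaurentSeries O) (b₀ : ι₀ → LaurentSeries O)
    (hb : LinearIndependent (ResidueField O) (fun i => red (b i)))
    (hb₀ : LinearIndependent (ResidueField O) (fun j => red (b₀ j)))
    (N : ℕ) (hN : ∀ i, ∀ n : ℤ, n < -(N : ℤ) → (b i).coeff n = 0)
    (h1 : (1 : LaurentSeries O) ∈ Submodule.span O (Set.range b₀))
    (hker : ∀ y ∈ Submodule.span O (Set.range b), jl_IsReg (red y) →
      ∃ c : ResidueField O, red y = HahnSeries.single 0 c)
    (hker₀ : ∀ y ∈ Submodule.span O (Set.range b₀), jl_IsReg (red y) →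
      ∃ c : ResidueField O, red y = HahnSeries.single 0 c)
    (hsub : ∀ y ∈ Submodule.span O (Set.range b₀),
      (∀ n : ℤ, n < -(N : ℤ) → (red y).coeff n = 0) →
        ∃ x ∈ Submodule.span O (Set.range b), red x = red y)
    (m : ℕ) (hm : (m : ResidueField O) ≠ 0)
    (g : LaurentSeries O) (hg : jl_IsReg g) (hg1 : red g = 1)
    (hpow : ∀ x ∈ Submodule.span O (Set.range b), red x = 1 →
      x ^ m * g ∈ Submodule.span O (Set.range b₀)) :
    ∃ x ∈ Submodule.span O (Set.range b), red x = 1 ∧ jl_IsReg x := by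
  classical
  -- Step 0: an element reducing to 1
  obtain ⟨e, heΛ, he⟩ := hsub 1 h1 (by
    intro n hn
    rw [map_one, HahnSeries.coeff_one, if_neg]
    have : (0 : ℤ) ≤ N := Int.natCast_nonneg N
    omega)
  rw [map_one] at he
  have hNΛ : ∀ x ∈ Submodule.span O (Set.range b), ∀ n : ℤ, n < -(N : ℤ) → x.coeff n = 0 :=
    fun x hx => jl_coeff_eq_zero_of_mem_span b _ hN hx
  -- Step 1: dual functionals
  set s : Finset ℤ := Finset.Icc (-(N : ℤ)) 0 with hs
  have hw := jl_cv_indep b hb N hN hker
  obtain ⟨Φ, hΦ⟩ := jl_exists_dual (fun i => jl_cv s (b i)) hw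
  -- Step 2: the optimal element
  set u : s → O := jl_cv s e - jl_cv s 1 with hu_def
  have hu : ∀ a, residue O (u a) = 0 := by
    intro a
    have h2 : (red e).coeff a.1 = (red (1 : LaurentSeries O)).coeff a.1 := by rw [he, map_one]
    rw [ModularCurve.coeffMap_coeff, ModularCurve.coeffMap_coeff] at h2
    simp only [hu_def, Pi.sub_apply, jl_cv, map_sub, h2, sub_self]
  set x₂ : LaurentSeries O := ∑ i, (Φ u i) • b i with hx₂
  have hx₂Λ : x₂ ∈ Submodule.span O (Set.range b) :=
    Submodule.sum_mem _ fun i _ => Submodule.smul_mem _ _ (Submodule.subset_span ⟨i, rfl⟩)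
  have hx₂red : red x₂ = 0 := by
    rw [hx₂, map_sum]
    exact Finset.sum_eq_zero fun i _ =>
      jl_red_smul_of_residue_eq_zero (jl_residue_lin_eq_zero Φ u hu i) _
  set x₁ : LaurentSeries O := e - x₂ with hx₁
  have hx₁Λ : x₁ ∈ Submodule.span O (Set.range b) := Submodule.sub_mem _ heΛ hx₂Λ
  have hx₁red : red x₁ = 1 := by rw [hx₁, map_sub, he, hx₂red, sub_zero]
  set u' : s → O := jl_cv s x₁ - jl_cv s 1 with hu'_def
  have hu'eq : u' = u - ∑ i, (Φ u i) • jl_cv s (b i) := by
    rw [hu'_def, hu_def, hx₁, jl_cv_sub, hx₂, jl_cv_sum]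
    simp only [jl_cv_smul]
    abel
  have hΦu' : Φ u' = 0 := by
    rw [hu'eq, map_sub, map_sum]
    simp only [map_smul, hΦ]
    rw [sub_eq_zero]
    funext j
    simp only [Finset.sum_apply, Pi.smul_apply, smul_eq_mul, Pi.single_apply, mul_ite, mul_one,
      mul_zero]
    rw [Finset.sum_ite_eq]
    simp
  have hu'red : ∀ a, residue O (u' a) = 0 := by
    intro a
    have h2 : (red x₁).coeff a.1 = (red (1 : LaurentSeries O)).coeff a.1 := by
      rw [hx₁red, map_one]
    rw [ModularCurve.coeffMap_coeff, ModularCurve.coeffMap_coeff] at h2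
    simp only [hu'_def, Pi.sub_apply, jl_cv, map_sub, h2, sub_self]
  by_cases hu'0 : u' = 0
  · refine ⟨x₁, hx₁Λ, hx₁red, fun n hn => ?_⟩
    by_cases hns : n ∈ s
    · have h2 := congrFun hu'0 ⟨n, hns⟩
      simp only [hu'_def, Pi.sub_apply, jl_cv, Pi.zero_apply] at h2
      rw [sub_eq_zero] at h2
      rw [h2, HahnSeries.coeff_one, if_neg hn.ne]
    · have hlt : n < -(N : ℤ) := by
        rw [hs, Finset.mem_Icc] at hns
        omega
      exact hNΛ x₁ hx₁Λ n hlt
  -- content of the defect
  obtain ⟨d, t, hd0, hu't, a₁, hta₁⟩ := jl_content u' hu'0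
  have hΦt : Φ t = 0 := by
    have h2 := hΦu'
    rw [hu't, map_smul] at h2
    exact (smul_eq_zero.mp h2).resolve_left hd0
  have hta₁' : residue O (t a₁) ≠ 0 := (residue_ne_zero_iff_isUnit _).mpr hta₁
  have hdm : residue O d = 0 := by
    have h2 := hu'red a₁
    rw [hu't, Pi.smul_apply, smul_eq_mul, map_mul] at h2
    exact (mul_eq_zero.mp h2).resolve_right hta₁'
  have htspan : (fun a => residue O (t a)) ∉ Submodule.span (ResidueField O)
      (Set.range fun i => (fun a => residue O (jl_cv s (b i) a))) := by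
    intro hmem
    exact hta₁' (jl_residue_eq_zero_of_dual _ Φ hΦ t hΦt hmem a₁)
  exfalso
  apply htspan
  -- Step 3: expansion of the m-th power
  set τ : LaurentSeries O := jl_ofCv s t with hτ
  set r : LaurentSeries O := x₁ - d • τ with hr
  have hrcoeff : ∀ n : ℤ, n ≤ 0 → r.coeff n = (1 : LaurentSeries O).coeff n := by
    intro n hn
    by_cases hns : n ∈ s
    · have h2 := congrFun hu't ⟨n, hns⟩
      simp only [hu'_def, Pi.sub_apply, jl_cv, Pi.smul_apply, smul_eq_mul] at h2
      rw [hr, HahnSeries.coeff_sub, HahnSeries.coeff_smul, smul_eq_mul, hτ,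
        jl_ofCv_coeff_mem s t ⟨n, hns⟩, ← h2]
      ring
    · have hlt : n < -(N : ℤ) := by
        rw [hs, Finset.mem_Icc] at hns
        omega
      rw [hr, HahnSeries.coeff_sub, HahnSeries.coeff_smul, hNΛ x₁ hx₁Λ n hlt, hτ,
        jl_ofCv_coeff_not_mem s t hns, smul_zero, sub_zero, HahnSeries.coeff_one, if_neg]
      have : (0 : ℤ) ≤ N := Int.natCast_nonneg N
      omega
  have hrreg : jl_IsReg r := fun n hn => by
    rw [hrcoeff n hn.le, HahnSeries.coeff_one, if_neg hn.ne]
  have hrred : red r = 1 := by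
    rw [hr, map_sub, hx₁red, jl_red_smul_of_residue_eq_zero hdm, sub_zero]
  obtain ⟨z, hz⟩ := Polynomial.powAddExpansion r (d • τ) m
  set y : LaurentSeries O := x₁ ^ m * g with hy_def
  have hyΛ₀ : y ∈ Submodule.span O (Set.range b₀) := hpow x₁ hx₁Λ hx₁red
  set yreg : LaurentSeries O := r ^ m * g with hyreg_def
  set y₁ : LaurentSeries O := (m : LaurentSeries O) * r ^ (m - 1) * τ * g + d • (z * τ ^ 2 * g)
    with hy₁_def
  have hy : y = yreg + d • y₁ := by
    have hx₁' : x₁ = r + d • τ := by rw [hr]; abel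
    rw [hy_def, hyreg_def, hy₁_def, hx₁', hz]
    simp only [← HahnSeries.C_mul_eq_smul]
    ring
  have hyreg : jl_IsReg yreg := jl_isReg_mul (jl_isReg_pow hrreg m) hg
  -- Step 4: saturation of Λ₀
  obtain ⟨N₀, hNN₀, hN₀⟩ := jl_exists_bound b₀ N
  set s₀ : Finset ℤ := Finset.Icc (-(N₀ : ℤ)) 0 with hs₀
  have hw₀ := jl_cv_indep b₀ hb₀ N₀ hN₀ hker₀
  set lam : O := yreg.coeff 0 with hlam
  have hy2 : y - lam • (1 : LaurentSeries O) ∈ Submodule.span O (Set.range b₀) :=
    Submodule.sub_mem _ hyΛ₀ (Submodule.smul_mem _ _ h1)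
  obtain ⟨c', hc'⟩ := (Submodule.mem_span_range_iff_exists_fun O).mp hy2
  have hcv : ∑ j, c' j • jl_cv s₀ (b₀ j) = d • jl_cv s₀ y₁ := by
    have h2 : jl_cv s₀ (∑ j, c' j • b₀ j) = ∑ j, c' j • jl_cv s₀ (b₀ j) := by
      rw [jl_cv_sum]
      rfl
    rw [← h2, hc', hy]
    funext a
    have ha : a.1 ≤ 0 := (Finset.mem_Icc.mp a.2).2
    simp only [jl_cv, Pi.smul_apply, smul_eq_mul, HahnSeries.coeff_sub, HahnSeries.coeff_add,
      HahnSeries.coeff_smul, HahnSeries.coeff_one]
    rcases ha.lt_or_eq with ha' | ha'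
    · rw [hyreg a.1 ha', if_neg ha'.ne]
      ring
    · rw [ha', if_pos rfl, hlam]
      ring
  have hdvd := jl_dvd_of_sum_eq_smul (fun j => jl_cv s₀ (b₀ j)) hw₀ c' d _ hcv
  choose c'' hc'' using hdvd
  set y' : LaurentSeries O := ∑ j, c'' j • b₀ j with hy'_def
  have hy'Λ₀ : y' ∈ Submodule.span O (Set.range b₀) :=
    Submodule.sum_mem _ fun j _ => Submodule.smul_mem _ _ (Submodule.subset_span ⟨j, rfl⟩)
  have hy' : y - lam • (1 : LaurentSeries O) = d • y' := by
    rw [← hc', hy'_def, Finset.smul_sum]
    refine Finset.sum_congr rfl fun j _ => ?_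
    rw [smul_smul, ← hc'' j]
  -- Step 5: the polar part of y'
  have hdiff : ∀ n : ℤ, n < 0 → y'.coeff n = y₁.coeff n := by
    intro n hn
    have h2 := congrArg (fun x : LaurentSeries O => x.coeff n) hy'
    simp only [hy, HahnSeries.coeff_sub, HahnSeries.coeff_add, HahnSeries.coeff_smul,
      smul_eq_mul, HahnSeries.coeff_one, if_neg hn.ne, mul_zero, sub_zero, hyreg n hn,
      zero_add] at h2
    exact (mul_left_cancel₀ hd0 h2).symm
  have hredy₁ : red y₁ = (m : LaurentSeries (ResidueField O)) * red τ := by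
    rw [hy₁_def, map_add, jl_red_smul_of_residue_eq_zero hdm, add_zero, map_mul, map_mul, map_mul,
      map_pow, hrred, hg1, one_pow, mul_one, mul_one, map_natCast]
  have hcoeff_y' : ∀ n : ℤ, n < 0 →
      (red y').coeff n = (m : ResidueField O) * residue O (τ.coeff n) := by
    intro n hn
    rw [ModularCurve.coeffMap_coeff, hdiff n hn, ← ModularCurve.coeffMap_coeff, hredy₁,
      ← nsmul_eq_mul, HahnSeries.coeff_nsmul, Pi.smul_apply, nsmul_eq_mul,
      ModularCurve.coeffMap_coeff]
  obtain ⟨x, hxΛ, hx⟩ := hsub y' hy'Λ₀ (by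
    intro n hn
    have hn0 : n < 0 := by
      have : (0 : ℤ) ≤ N := Int.natCast_nonneg N
      omega
    have hns : n ∉ s := by
      rw [hs, Finset.mem_Icc]
      omega
    rw [hcoeff_y' n hn0, hτ, jl_ofCv_coeff_not_mem s t hns, map_zero, mul_zero])
  -- Step 6: contradiction
  have hxs := jl_cv_red_mem_span b s hxΛ
  have hes := jl_cv_red_mem_span b s heΛ
  set δ : ResidueField O := residue O (x.coeff 0) - (m : ResidueField O) * residue O (τ.coeff 0)
    with hδ
  have hkey : (fun a => residue O (t a)) = (m : ResidueField O)⁻¹ •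
      ((fun a => residue O (jl_cv s x a)) - δ • (fun a => residue O (jl_cv s e a))) := by
    funext a
    have ha : a.1 ≤ 0 := (Finset.mem_Icc.mp a.2).2
    have hea : residue O (e.coeff a.1) = (1 : LaurentSeries (ResidueField O)).coeff a.1 := by
      rw [← he, ModularCurve.coeffMap_coeff]
    have hτa : τ.coeff a.1 = t a := by rw [hτ, jl_ofCv_coeff_mem]
    simp only [Pi.smul_apply, Pi.sub_apply, smul_eq_mul, jl_cv, hea, HahnSeries.coeff_one]
    rcases ha.lt_or_eq with ha' | ha'
    · have h2 := hcoeff_y' a.1 ha'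
      rw [← hx, ModularCurve.coeffMap_coeff, hτa] at h2
      rw [if_neg ha'.ne, mul_zero, sub_zero, h2, ← mul_assoc, inv_mul_cancel₀ hm, one_mul]
    · rw [if_pos ha', mul_one, hδ]
      have h3 : τ.coeff 0 = t a := by rw [← ha', hτa]
      rw [h3, ha']
      field_simp
      ring
  rw [hkey]
  exact Submodule.smul_mem _ _ (Submodule.sub_mem _ hxs (Submodule.smul_mem _ _ hes))

end Core

end Fermat.Agent.JT3
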